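import Fermat.Agent.S48.W1.Abs.Defs

/-!
# S48 / W1b / task W1-AbsModel (PURE LINEAR ALGEBRA, Mathlib only)

`E` a finite dimensional complex vector space, `c : E →ₗ[ℂ] (I → ℂ)` an injective "coefficient map", `lat c = {g : all c g i ∈ ℤ}` (file `Abs/Defs.lean`).

## W1-AbsModel (`exists_model`; ~120 lines)
  `π₀ : ℂ →ₗ[K] K` with `π₀ ∘ (inclusion) = id` (`LinearMap.exists_leftInverse_of_injective (Algebra.linearMap K ℂ)`, kernel `⊥` by injectivity), `π x = (π₀ x : ℂ)`.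
  `f ∈ span ℂ (lat c)`: `f = ∑ j, a j • λ j` (`Submodule.mem_span_iff_exists_finset_subset` / `Finsupp.mem_span_iff_linearCombination` / `Submodule.span_induction`), `g = ∑ j, π (a j) • λ j`.  `c g i = ∑ π (a j) * m_{ji} = π (∑ a j * m_{ji})` (`m_{ji} : ℤ`, `π (x * m) = π x * m`: `map_zsmul`/`K`-linearity).
  Each `π (a j) ∈ K` is algebraic: `exists_integral_multiple` gives `D_j ≠ 0` in `ℤ` with `D_j π(a j)` integral; `D = ∏ |D_j|`.
-/

set_option autoImplicit false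

namespace Fermat.Agent.S48.W1.Abs

variable {E I : Type*} [AddCommGroup E] [Module ℂ E] {c : E →ₗ[ℂ] (I → ℂ)}

theorem exists_model (hspan : Submodule.span ℂ (lat c : Set E) = ⊤) (K : Subfield ℂ)
    (hK : ∀ x ∈ K, IsAlgebraic ℚ x) (f : E) :
    ∃ (g : E) (D : ℕ) (π : ℂ → ℂ), D ≠ 0 ∧ π 1 = 1 ∧ (∀ x y, π (x + y) = π x + π y) ∧
      (∀ x ∈ K, ∀ y, π (x * y) = x * π y) ∧ (∀ i, c g i = π (c f i)) ∧
      ∀ i, IsIntegral ℤ ((D : ℂ) * c g i) := by
  obtain ⟨π₀, hπ₀⟩ := LinearMap.exists_leftInverse_of_injective (Algebra.linearMap K ℂ)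
    (LinearMap.ker_eq_bot.2 (algebraMap K ℂ).injective)
  let π : ℂ → ℂ := fun x => (π₀ x : ℂ)
  have hπK : ∀ x : K, π₀ (x : ℂ) = x := fun x => LinearMap.congr_fun hπ₀ x
  have hπ1 : π 1 = 1 := by
    have := hπK 1
    simp only [π]
    rw [Subfield.coe_one] at this
    rw [this, Subfield.coe_one]
  have hadd : ∀ x y, π (x + y) = π x + π y := by
    intro x y
    simp only [π]
    rw [map_add, Subfield.coe_add]
  have hmul : ∀ x ∈ K, ∀ y, π (x * y) = x * π y := by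
    intro x hx y
    have h1 : x * y = (⟨x, hx⟩ : K) • y := rfl
    simp only [π]
    rw [h1, map_smul, smul_eq_mul, Subfield.coe_mul]
  have hzero : π 0 = 0 := by
    simp only [π]
    rw [map_zero, Subfield.coe_zero]
  have hint : ∀ (m : ℤ) (y : ℂ), π (y * m) = π y * m := by
    intro m y
    rw [mul_comm, hmul _ (intCast_mem K m), mul_comm]
  -- the property
  let Q : E → Prop := fun h => ∃ (g : E) (D : ℕ), D ≠ 0 ∧ (∀ i, c g i = π (c h i)) ∧
      ∀ i, IsIntegral ℤ ((D : ℂ) * c g i)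
  have hQadd : ∀ h₁ h₂, Q h₁ → Q h₂ → Q (h₁ + h₂) := by
    rintro h₁ h₂ ⟨g₁, D₁, hD₁, e₁, i₁⟩ ⟨g₂, D₂, hD₂, e₂, i₂⟩
    refine ⟨g₁ + g₂, D₁ * D₂, mul_ne_zero hD₁ hD₂, fun i => ?_, fun i => ?_⟩
    · rw [map_add, map_add, Pi.add_apply, Pi.add_apply, hadd, e₁, e₂]
    · have e : ((D₁ * D₂ : ℕ) : ℂ) * c (g₁ + g₂) i =
          (D₂ : ℂ) * ((D₁ : ℂ) * c g₁ i) + (D₁ : ℂ) * ((D₂ : ℂ) * c g₂ i) := by
        rw [map_add, Pi.add_apply]
        push_cast
        ring
      rw [e]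
      exact ((isIntegral_algebraMap (x := (D₂ : ℤ))).mul (i₁ i)).add
        ((isIntegral_algebraMap (x := (D₁ : ℤ))).mul (i₂ i))
  have key : ∀ h ∈ Submodule.span ℂ (lat c : Set E), ∀ a : ℂ, Q (a • h) := by
    intro h hh
    induction hh using Submodule.span_induction with
    | mem l hl =>
      intro a
      have halg : IsAlgebraic ℤ (π a) :=
        (IsFractionRing.isAlgebraic_iff ℤ ℚ ℂ).2 (hK _ (π₀ a).2)
      obtain ⟨y, hy, hyint⟩ := halg.exists_integral_multiple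
      obtain ⟨D, hD, hyint'⟩ : ∃ D : ℕ, D ≠ 0 ∧ IsIntegral ℤ ((D : ℂ) * π a) := by
        obtain ⟨n, rfl | rfl⟩ := Int.eq_nat_or_neg y
        · refine ⟨n, fun h0 => hy (by rw [h0]; rfl), ?_⟩
          rw [zsmul_eq_mul, Int.cast_natCast] at hyint
          exact hyint
        · refine ⟨n, fun h0 => hy (by rw [h0]; rfl), ?_⟩
          rw [zsmul_eq_mul, Int.cast_neg, Int.cast_natCast, neg_mul] at hyint
          have := hyint.neg
          rwa [neg_neg] at this
      refine ⟨π a • l, D, hD, fun i => ?_, fun i => ?_⟩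
      · obtain ⟨m, hm⟩ := hl i
        rw [map_smul, map_smul, Pi.smul_apply, Pi.smul_apply, smul_eq_mul, smul_eq_mul, hm, hint]
      · obtain ⟨m, hm⟩ := hl i
        rw [map_smul, Pi.smul_apply, smul_eq_mul, hm, ← mul_assoc]
        exact hyint'.mul (isIntegral_algebraMap (x := m))
    | zero =>
      intro a
      refine ⟨0, 1, one_ne_zero, fun i => ?_, fun i => ?_⟩
      · rw [smul_zero, map_zero, Pi.zero_apply, hzero]
      · rw [map_zero, Pi.zero_apply, mul_zero]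
        exact isIntegral_zero
    | add x y _ _ hx hy =>
      intro a
      rw [smul_add]
      exact hQadd _ _ (hx a) (hy a)
    | smul b x _ hx =>
      intro a
      rw [smul_smul]
      exact hx (a * b)
  obtain ⟨g, D, hD, e, hi⟩ := key f (by rw [hspan]; exact Submodule.mem_top) 1
  rw [one_smul] at e
  exact ⟨g, D, π, hD, hπ1, hadd, hmul, e, hi⟩

end Fermat.Agent.S48.W1.Abs
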