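import Mathlib

/-!
# S48 / W1b : lattices in coefficient spaces (definitions)

`E` a complex vector space, `c : E →ₗ[ℂ] (I → ℂ)` a "coefficient map", `lat c = {g : all c g i ∈ ℤ}`.
-/

set_option autoImplicit false

namespace Fermat.Agent.S48.W1.Abs

variable {E I : Type*} [AddCommGroup E] [Module ℂ E] (c : E →ₗ[ℂ] (I → ℂ))

/-- the vectors with integral coordinates. -/
def lat : Submodule ℤ E where
  carrier := {g | ∀ i, ∃ m : ℤ, c g i = m}
  add_mem' := by
    intro a b ha hb i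
    obtain ⟨m, hm⟩ := ha i
    obtain ⟨n, hn⟩ := hb i
    exact ⟨m + n, by rw [map_add, Pi.add_apply, hm, hn]; push_cast; rfl⟩
  zero_mem' := fun i => ⟨0, by simp⟩
  smul_mem' := by
    intro z a ha i
    obtain ⟨m, hm⟩ := ha i
    exact ⟨z * m, by rw [map_zsmul, Pi.smul_apply, hm]; simp⟩

theorem mem_lat {g : E} : g ∈ lat c ↔ ∀ i, ∃ m : ℤ, c g i = m := Iff.rfl

end Fermat.Agent.S48.W1.Abs
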