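import Fermat.Agent.S48.W1.Abs.Lat

/-!
# S48 / W1b / task W1-AbsInt (PURE LINEAR ALGEBRA, Mathlib only)

`E` a finite dimensional complex vector space, `c : E →ₗ[ℂ] (I → ℂ)` an injective "coefficient map", `lat c = {g : all c g i ∈ ℤ}` (file `Abs/Defs.lean`).

## W1-AbsInt (`isIntegral_of_eigen`; ~100 lines)
  `T₀ : lat c →ₗ[ℤ] lat c` the restriction of `T` (`LinearMap.restrict` of `T.restrictScalars ℤ`).  `Module.End.isIntegral` / `LinearMap.exists_monic_and_aeval_eq_zero ℤ T₀` (`Module.Finite ℤ (lat c)`): a monic `P : ℤ[X]` with `aeval T₀ P = 0`.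
  Then `aeval T P` (`P` mapped to `ℂ[X]`, or `Polynomial.aeval T P` with the `ℤ`-algebra structure on `Module.End ℂ E`) kills `lat c` (induction on `P`: `Polynomial.induction_on`, or: `(aeval T P) g = ↑((aeval T₀ P) ⟨g, _⟩)`, via `Polynomial.aeval_eq_sum_range`, `pow` by induction), hence its `ℂ`-span `⊤` (`Submodule.span_induction` / `LinearMap.ext_on`).
  `(aeval T P) f = (aeval a P) • f` (`Module.End.aeval_apply_of_hasEigenvector` or induction), `f ≠ 0`: `aeval a P = 0`.
-/

set_option autoImplicit false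

namespace Fermat.Agent.S48.W1.Abs

open Polynomial

variable {E I : Type*} [AddCommGroup E] [Module ℂ E] {c : E →ₗ[ℂ] (I → ℂ)}

theorem isIntegral_of_eigen [FiniteDimensional ℂ E] (hc : Function.Injective c)
    (hspan : Submodule.span ℂ (lat c : Set E) = ⊤) (T : E →ₗ[ℂ] E)
    (hT : ∀ g ∈ lat c, T g ∈ lat c) {f : E} (hf : f ≠ 0) {a : ℂ} (h : T f = a • f) :
    IsIntegral ℤ a := by
  have := lat_finite hc
  let T₀ : lat c →ₗ[ℤ] lat c := (T.restrictScalars ℤ).restrict hT
  obtain ⟨P, hP, hP0⟩ := LinearMap.exists_monic_and_aeval_eq_zero ℤ T₀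
  have hpow : ∀ (k : ℕ) (g : lat c), (T ^ k) (g : E) = ((T₀ ^ k) g : E) := by
    intro k
    induction k with
    | zero => intro g; simp
    | succ k ih =>
      intro g
      rw [pow_succ, pow_succ, Module.End.mul_apply, Module.End.mul_apply]
      exact ih (T₀ g)
  have key : ∀ (Q : ℤ[X]) (g : lat c), (aeval T Q) (g : E) = ((aeval T₀ Q) g : E) := by
    intro Q
    induction Q using Polynomial.induction_on' with
    | add p r hp hr =>
      intro g
      rw [map_add, map_add, LinearMap.add_apply, LinearMap.add_apply, hp, hr]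
      rfl
    | monomial k z =>
      intro g
      rw [aeval_monomial, aeval_monomial, Module.End.mul_apply, Module.End.mul_apply, hpow,
        Module.algebraMap_end_apply, Module.algebraMap_end_apply]
      rfl
  have hzero : aeval T P = 0 := by
    apply LinearMap.ext_on hspan
    intro g hg
    have := key P ⟨g, hg⟩
    rw [hP0] at this
    simpa using this
  have hev : Module.End.HasEigenvector T a f :=
    ⟨Module.End.mem_eigenspace_iff.2 h, hf⟩
  have h1 := Module.End.aeval_apply_of_hasEigenvector (p := P.map (algebraMap ℤ ℂ)) hev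
  rw [aeval_map_algebraMap, hzero, LinearMap.zero_apply, eval_map_algebraMap] at h1
  refine ⟨P, hP, ?_⟩
  rw [← aeval_def]
  exact (smul_eq_zero.1 h1.symm).resolve_right hf

end Fermat.Agent.S48.W1.Abs
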