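import Fermat.Agent.S48.W1.Abs.Defs
import Fermat.Agent.S23.Descent

/-!
# S48 / W1b / task W1-AbsLat (PURE LINEAR ALGEBRA, Mathlib only)

`E` a finite dimensional complex vector space, `c : E →ₗ[ℂ] (I → ℂ)` an injective "coefficient map", `lat c = {g : all c g i ∈ ℤ}` (file `Abs/Defs.lean`).

## W1-AbsLat (`exists_finset_sep`, `lat_finite`; ~100 lines)
* `exists_finset_sep`: the functionals `ev i = (LinearMap.proj i).comp c` span `Module.Dual ℂ E` (first 25 lines of the proof of `Fermat.Agent.S23.span_rational_eq_top`, file `S23/Descent.lean`: `dualCoannihilator = ⊥`); a finite dimensional space spanned by a set is spanned by a finite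
  subset (`Submodule.fg_def`/`Submodule.FG`, `Submodule.fg_span_iff..`, or the basis `Basis.ofSpan hspan` as in `S23/Descent.lean`, which is finite and consists of `ev i`'s).  If all `ev i`, `i ∈ J`, kill `g` then every functional kills `g`, so `g = 0` (`Module.forall_dual_apply_eq_zero_iff`).
* `lat_finite`: the `ℤ`-linear map `lat c → (J → ℤ)`, `g ↦ (the integer c g i)` (`Classical.choose`; additivity by `Int.cast_injective`) is injective; `Module.Finite.of_injective` (`J → ℤ` is Noetherian).
-/

set_option autoImplicit false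

namespace Fermat.Agent.S48.W1.Abs

variable {E I : Type*} [AddCommGroup E] [Module ℂ E] {c : E →ₗ[ℂ] (I → ℂ)}

theorem exists_finset_sep [FiniteDimensional ℂ E] (hc : Function.Injective c) :
    ∃ J : Finset I, ∀ g : E, (∀ i ∈ J, c g i = 0) → g = 0 := by
  classical
  let S : Finset I → Submodule ℂ E := fun J =>
    ⨅ i ∈ J, LinearMap.ker ((LinearMap.proj i : (I → ℂ) →ₗ[ℂ] ℂ).comp c)
  have hmem : ∀ (J : Finset I) (g : E), g ∈ S J ↔ ∀ i ∈ J, c g i = 0 := by
    intro J g
    simp [S, Submodule.mem_iInf]
  let φ : Finset I → ℕ := fun J => Module.finrank ℂ (S J)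
  refine ⟨Function.argmin φ, fun g hg => ?_⟩
  by_contra hg0
  have hcg : c g ≠ 0 := fun h0 => hg0 (hc (by rw [h0, map_zero]))
  obtain ⟨i, hi⟩ := Function.ne_iff.1 hcg
  have hlt : S (insert i (Function.argmin φ)) < S (Function.argmin φ) := by
    refine lt_of_le_of_ne ?_ ?_
    · intro y hy
      rw [hmem] at hy ⊢
      exact fun k hk => hy k (Finset.mem_insert_of_mem hk)
    · intro heq
      have h1 : g ∈ S (insert i (Function.argmin φ)) := by
        rw [heq, hmem]
        exact hg
      rw [hmem] at h1
      exact hi (h1 i (Finset.mem_insert_self _ _))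
  exact Function.not_lt_argmin φ _ (Submodule.finrank_lt_finrank_of_lt hlt)

theorem lat_finite [FiniteDimensional ℂ E] (hc : Function.Injective c) :
    Module.Finite ℤ (lat c) := by
  classical
  obtain ⟨J, hJ⟩ := exists_finset_sep hc
  have hspec : ∀ (g : lat c) (i : I), c (g : E) i = ((Classical.choose (g.2 i) : ℤ) : ℂ) :=
    fun g i => Classical.choose_spec (g.2 i)
  let φ : lat c →ₗ[ℤ] (J → ℤ) :=
    { toFun := fun g i => Classical.choose (g.2 i.1)
      map_add' := by
        intro g h
        funext i
        apply Int.cast_injective (α := ℂ)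
        rw [Pi.add_apply, Int.cast_add, ← hspec, ← hspec, ← hspec, Submodule.coe_add, map_add,
          Pi.add_apply]
      map_smul' := by
        intro z g
        funext i
        apply Int.cast_injective (α := ℂ)
        rw [RingHom.id_apply, Pi.smul_apply, smul_eq_mul, Int.cast_mul, ← hspec, ← hspec,
          Submodule.coe_smul, map_zsmul, Pi.smul_apply, zsmul_eq_mul] }
  have hφ : Function.Injective φ := by
    rw [injective_iff_map_eq_zero]
    intro g hg
    apply Subtype.ext
    apply hJ
    intro i hi
    have h1 : φ g ⟨i, hi⟩ = 0 := by rw [hg]; rfl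
    rw [hspec]
    have h2 : Classical.choose (g.2 i) = 0 := h1
    rw [h2, Int.cast_zero]
  exact Module.Finite.of_injective φ hφ

end Fermat.Agent.S48.W1.Abs
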