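import Fermat.Agent.S48.W1.Abs.Defs
import Fermat.Agent.S23.Descent

/-!
# S48 / W1b / task W1-AbsSpan (PURE LINEAR ALGEBRA, Mathlib only)

`E` a finite dimensional complex vector space, `c : E →ₗ[ℂ] (I → ℂ)` an injective "coefficient map", `lat c = {g : all c g i ∈ ℤ}` (file `Abs/Defs.lean`).

## W1-AbsSpan (`span_lat_eq_top`; ~80 lines)
  `e : ℕ → I` surjective (`exists_surjective_nat I`).  `S23.span_rational_eq_top ((LinearMap.funLeft ℂ ℂ e).comp c)`: `E` is spanned by the `g` with all `c g i` rational.  For such `g`: `hbdd` gives `D`, `(D : ℂ) • g ∈ lat c`, `g = D⁻¹ • (D • g)`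
  (exactly the end of `Fermat.Agent.S23.main_even`, file `S23/Main.lean`).
-/

set_option autoImplicit false

namespace Fermat.Agent.S48.W1.Abs

variable {E I : Type*} [AddCommGroup E] [Module ℂ E] {c : E →ₗ[ℂ] (I → ℂ)}

theorem span_lat_eq_top [FiniteDimensional ℂ E] [Countable I] [Nonempty I]
    (hc : Function.Injective c)
    (hσ : ∀ (σ : ℂ ≃+* ℂ) (g : E), ∃ g' : E, ∀ i, c g' i = σ (c g i))
    (hbdd : ∀ g : E, (∀ i, ∃ r : ℚ, c g i = (r : ℂ)) →
      ∃ D : ℕ, D ≠ 0 ∧ ∀ i, ∃ m : ℤ, (D : ℂ) * c g i = m) :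
    Submodule.span ℂ (lat c : Set E) = ⊤ := by
  obtain ⟨e, he⟩ := exists_surjective_nat I
  let c' : E →ₗ[ℂ] (ℕ → ℂ) := (LinearMap.funLeft ℂ ℂ e).comp c
  have hc'apply : ∀ g n, c' g n = c g (e n) := fun g n => rfl
  have hc' : Function.Injective c' := by
    intro g h hgh
    apply hc
    funext i
    obtain ⟨n, rfl⟩ := he i
    exact congrFun hgh n
  have h1 := Fermat.Agent.S23.span_rational_eq_top c' hc' (by
    intro σ f
    obtain ⟨g, hg⟩ := hσ σ f
    exact ⟨g, fun n => hg (e n)⟩)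
  rw [eq_top_iff, ← h1, Submodule.span_le]
  intro g hg
  have hg' : ∀ i, ∃ r : ℚ, c g i = (r : ℂ) := by
    intro i
    obtain ⟨n, rfl⟩ := he i
    exact hg n
  obtain ⟨D, hD, hDm⟩ := hbdd g hg'
  have hD' : (D : ℂ) ≠ 0 := Nat.cast_ne_zero.2 hD
  have hmem : (D : ℂ) • g ∈ lat c := by
    intro i
    obtain ⟨m, hm⟩ := hDm i
    exact ⟨m, by rw [map_smul, Pi.smul_apply, smul_eq_mul, hm]⟩
  have e1 : g = (D : ℂ)⁻¹ • ((D : ℂ) • g) := by
    rw [smul_smul, inv_mul_cancel₀ hD', one_smul]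
  rw [e1]
  exact Submodule.smul_mem _ _ (Submodule.subset_span hmem)

end Fermat.Agent.S48.W1.Abs
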