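import Fermat.Agent.S48.W1.Abs.Defs

/-!
# S48 / W1b / task W1-AbsSys (PURE LINEAR ALGEBRA, Mathlib only)

`E` a finite dimensional complex vector space, `c : E →ₗ[ℂ] (I → ℂ)` an injective "coefficient map", `lat c = {g : all c g i ∈ ℤ}` (file `Abs/Defs.lean`).

## W1-AbsSys (`finite_systems`; ~100 lines)
  For each system `s` in the set choose an eigenvector `v s`.  `v` is linearly independent: by induction on the size of a vanishing combination `∑_{s ∈ F} b_s v_s = 0` (`linearIndependent_iff'`, `Finset.induction_on`): for `s₀ ∈ F`, `s ≠ s₀` pick `i` with `s i ≠ s₀ i`… standard: apply `T i - s₀ i`.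
  A convenient way: prove by induction on `F : Finset (ι → ℂ)` the statement `∀ b, (∑ s ∈ F, b s • v s = 0) → ∀ s ∈ F, b s = 0`; in the step `insert s₀ F`, for `s₁ ∈ F` choose `i` with `s₁ i ≠ s₀ i`, apply `T i` and subtract `s₀ i •`: `∑_{s ∈ F} (s i - s₀ i) b_s v_s = 0`, so `b_{s₁} = 0` by induction; finally `b_{s₀} v_{s₀} = 0`.
  `LinearIndependent.finite` (finite dimension) / `LinearIndependent.setFinite`.
-/

set_option autoImplicit false

namespace Fermat.Agent.S48.W1.Abs

variable {E I : Type*} [AddCommGroup E] [Module ℂ E] {c : E →ₗ[ℂ] (I → ℂ)}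

theorem finite_systems [FiniteDimensional ℂ E] {ι : Type*} (T : ι → E →ₗ[ℂ] E) :
    {s : ι → ℂ | ∃ f : E, f ≠ 0 ∧ ∀ i, T i f = s i • f}.Finite := by
  classical
  set S : Set (ι → ℂ) := {s : ι → ℂ | ∃ f : E, f ≠ 0 ∧ ∀ i, T i f = s i • f} with hS
  let v : S → E := fun s => Classical.choose s.2
  have hv0 : ∀ s : S, v s ≠ 0 := fun s => (Classical.choose_spec s.2).1
  have hvT : ∀ (s : S) (i : ι), T i (v s) = s.1 i • v s := fun s => (Classical.choose_spec s.2).2
  have hli : LinearIndependent ℂ v := by
    rw [linearIndependent_iff']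
    intro F
    induction F using Finset.induction_on with
    | empty => intro b _ s hs; exact absurd hs (Finset.notMem_empty s)
    | insert s₀ F hs₀ ih =>
      intro b hb
      rw [Finset.sum_insert hs₀] at hb
      have hF : ∀ s ∈ F, b s = 0 := by
        intro s₁ hs₁
        have hne : s₁.1 ≠ s₀.1 := by
          intro h
          exact hs₀ (Subtype.ext h ▸ hs₁)
        obtain ⟨i, hi⟩ := Function.ne_iff.1 hne
        have h1 := congrArg (T i) hb
        rw [map_add, map_smul, map_sum, map_zero, hvT] at h1
        have h2 : ∑ s ∈ F, (b s * (s.1 i - s₀.1 i)) • v s = 0 := by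
          have e1 : ∑ s ∈ F, (b s * (s.1 i - s₀.1 i)) • v s =
              ∑ s ∈ F, T i (b s • v s) - s₀.1 i • ∑ s ∈ F, b s • v s := by
            rw [Finset.smul_sum, ← Finset.sum_sub_distrib]
            refine Finset.sum_congr rfl fun s _ => ?_
            rw [map_smul, hvT, smul_smul, smul_smul, ← sub_smul]
            congr 1
            ring
          rw [e1, eq_neg_of_add_eq_zero_right h1, eq_neg_of_add_eq_zero_right hb, smul_neg,
            smul_smul, smul_smul, mul_comm]
          abel
        have h3 := ih _ h2 s₁ hs₁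
        exact (mul_eq_zero.1 h3).resolve_right (sub_ne_zero.2 hi)
      intro s hs
      rcases Finset.mem_insert.1 hs with rfl | hs
      · rw [Finset.sum_eq_zero (fun s' hs' => by rw [hF s' hs', zero_smul]), add_zero] at hb
        exact (smul_eq_zero.1 hb).resolve_right (hv0 _)
      · exact hF s hs
  have : Finite S := hli.finite_of_isNoetherian
  exact Set.toFinite S

end Fermat.Agent.S48.W1.Abs
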